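/-
Program B' (S34), helper9: leaf M6a (ONE-COMPONENT POINTS).

Let `C` be a Noetherian chart (a subalgebra of the function field `F₀` over the base `A₀`) with
two "Gauss" valuation rings `V`, `V'` above it (the generic points of the two components of the
special fibre), such that an element of `C` in both maximal ideals is divisible by `ϖ` in `C`
(the special fibre of `C` is reduced with at most these two components).  Let `S ≤ C` be a
subalgebra with `S ⧸ ϖ S` a Dedekind domain (the image of the smooth chart of the lower level)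
that surjects onto the image of `C` in the residue field of `V` (the component of `V` is the
lower-level curve).  Then at every closed point `x ∋ ϖ` of `C` that does NOT lie on the component
of `V'` (there is `e ∈ C`, `e ∉ x`, vanishing on the component of `V'`), the local ring of `C`
is factorial:

* `pointUFD_of_oneComp` : the statement (the conclusion is `H30.PointUFD C x hx.isPrime`
  unfolded);
* `red_of_unif_sat`, `unif_mem_nonunits` : the hypotheses `hred`, `hϖV` from the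
  `VData.Good` clauses `unif₁`, `unif₂`, `sat₁` (resp. `sat₂`);
* `pointUFD_of_oneComp_unif` : the same statement with these clauses as hypotheses.

The proof is an element chase: `ϖ` is a prime element of the local ring `D` of `C` at `x`
(its multiples are exactly the elements vanishing on the component of `V`), it lies in the
Jacobson radical, and every prime `Q ∌ ϖ` of `D` is principal modulo `ϖ` because
`D / ϖ D` is a localisation of the Dedekind domain `S ⧸ ϖ S`
(`S18.H72.exists_local_gen`); then `S18.H72.ufd_of_nakayama` (Kaplansky + Nakayama).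
-/
import Mathlib
import Fermat.Agent.S18.H72.LocalUFD

set_option autoImplicit false
set_option linter.style.haveILetI false

namespace Fermat.Agent.S34.H9

section OneComp

variable {A₀ F₀ : Type*} [CommRing A₀] [Field F₀] [Algebra A₀ F₀]

/-- The maximal ideal of a valuation subring absorbs multiplication by the ring. -/
theorem nonunits_mul_mem (V : ValuationSubring F₀) {a b : F₀} (ha : a ∈ V.nonunits)
    (hb : b ∈ V) : a * b ∈ V.nonunits := by
  rw [ValuationSubring.mem_nonunits_iff] at ha ⊢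
  rw [map_mul]
  have hb' : V.valuation b ≤ 1 := (V.valuation_le_one_iff b).2 hb
  calc V.valuation a * V.valuation b ≤ V.valuation a * 1 := mul_le_mul_right hb' _
    _ = V.valuation a := mul_one _
    _ < 1 := ha

/-- The maximal ideal of a valuation subring is prime. -/
theorem nonunits_mul_cases (V : ValuationSubring F₀) {a b : F₀} (ha : a ∈ V) (hb : b ∈ V)
    (hab : a * b ∈ V.nonunits) : a ∈ V.nonunits ∨ b ∈ V.nonunits := by
  by_contra hcon
  obtain ⟨h1, h2⟩ := not_or.mp hcon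
  rw [ValuationSubring.mem_nonunits_iff] at h1 h2 hab
  have ha1 : V.valuation a = 1 :=
    le_antisymm ((V.valuation_le_one_iff a).2 ha) (not_lt.mp h1)
  have hb1 : V.valuation b = 1 :=
    le_antisymm ((V.valuation_le_one_iff b).2 hb) (not_lt.mp h2)
  rw [map_mul, ha1, hb1, mul_one] at hab
  exact lt_irrefl _ hab

/-- `hϖV` from the uniformiser clause. -/
theorem unif_mem_nonunits (ϖ : A₀) (V : ValuationSubring F₀)
    (hu : ∀ y : F₀, y ∈ V.nonunits ↔ ∃ d ∈ V, y = ϖ • d) :
    algebraMap A₀ F₀ ϖ ∈ V.nonunits :=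
  (hu _).2 ⟨1, V.one_mem, by rw [Algebra.smul_def, mul_one]⟩

/-- `hred` from the uniformiser clauses for `V`, `V'` and the saturation clause of `C`. -/
theorem red_of_unif_sat (ϖ : A₀) (hϖ0 : algebraMap A₀ F₀ ϖ ≠ 0) (C : Subalgebra A₀ F₀)
    (V V' : ValuationSubring F₀)
    (hu : ∀ y : F₀, y ∈ V.nonunits ↔ ∃ d ∈ V, y = ϖ • d)
    (hu' : ∀ y : F₀, y ∈ V'.nonunits ↔ ∃ d ∈ V', y = ϖ • d)
    (hsat : ∀ y : F₀, y ∈ V → y ∈ V' → ϖ • y ∈ C → y ∈ C) :
    ∀ c ∈ C, c ∈ V.nonunits → c ∈ V'.nonunits → ∃ d ∈ C, c = ϖ • d := by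
  intro c hc h1 h2
  obtain ⟨d₁, hd₁, e1⟩ := (hu c).1 h1
  obtain ⟨d₂, hd₂, e2⟩ := (hu' c).1 h2
  have hdd : d₁ = d₂ := by
    have h3 : ϖ • d₁ = ϖ • d₂ := by rw [← e1, ← e2]
    rw [Algebra.smul_def, Algebra.smul_def] at h3
    exact mul_left_cancel₀ hϖ0 h3
  subst hdd
  exact ⟨d₁, hsat d₁ hd₁ hd₂ (by rw [← e1]; exact hc), e1⟩

/-- **M6a (one-component points).**  The local ring of the chart `C` at a closed point `x ∋ ϖ`
lying on the component of `V` only is factorial. -/
theorem pointUFD_of_oneComp (ϖ : A₀) (hϖ0 : algebraMap A₀ F₀ ϖ ≠ 0) (C : Subalgebra A₀ F₀)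
    [IsNoetherianRing ↥C]
    (V V' : ValuationSubring F₀) (hCV : ∀ c ∈ C, c ∈ V) (hCV' : ∀ c ∈ C, c ∈ V')
    (hϖV : algebraMap A₀ F₀ ϖ ∈ V.nonunits)
    (hred : ∀ c ∈ C, c ∈ V.nonunits → c ∈ V'.nonunits → ∃ d ∈ C, c = ϖ • d)
    (S : Subalgebra A₀ F₀) (hSC : S ≤ C)
    (hSded : IsDedekindDomain (↥S ⧸ Ideal.span {algebraMap A₀ ↥S ϖ}))
    (hsurj : ∀ c ∈ C, ∃ s ∈ S, c - s ∈ V.nonunits)
    (x : Ideal ↥C) (hx : x.IsMaximal) (hϖx : algebraMap A₀ ↥C ϖ ∈ x)
    (hone : ∃ e : ↥C, e ∉ x ∧ (e : F₀) ∈ V'.nonunits) :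
    haveI := hx.isPrime
    UniqueFactorizationMonoid (Localization.AtPrime x) := by
  classical
  haveI hxp : x.IsPrime := hx.isPrime
  show UniqueFactorizationMonoid (Localization.AtPrime x)
  obtain ⟨e, hex, heV'⟩ := hone
  -- the predicate "vanishes on the component of `V`"
  have N1 : ∀ c d : ↥C, (c : F₀) ∈ V.nonunits → ((c * d : ↥C) : F₀) ∈ V.nonunits :=
    fun c d hc => nonunits_mul_mem V hc (hCV _ d.2)
  have N2 : ∀ c d : ↥C, ((c * d : ↥C) : F₀) ∈ V.nonunits →
      (c : F₀) ∈ V.nonunits ∨ (d : F₀) ∈ V.nonunits :=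
    fun c d hcd => nonunits_mul_cases V (hCV _ c.2) (hCV _ d.2) hcd
  have N3 : ((algebraMap A₀ ↥C ϖ : ↥C) : F₀) ∈ V.nonunits := hϖV
  -- (F1)
  have F1 : ∀ c : ↥C, (c : F₀) ∈ V.nonunits → ∃ d : ↥C, c * e = algebraMap A₀ ↥C ϖ * d := by
    intro c hc
    have h1 : ((c : F₀) * (e : F₀)) ∈ V.nonunits := nonunits_mul_mem V hc (hCV _ e.2)
    have h2 : ((c : F₀) * (e : F₀)) ∈ V'.nonunits := by
      rw [mul_comm]
      exact nonunits_mul_mem V' heV' (hCV' _ c.2)
    obtain ⟨d, hd, hcd⟩ := hred _ (C.mul_mem c.2 e.2) h1 h2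
    refine ⟨⟨d, hd⟩, Subtype.ext ?_⟩
    show (c : F₀) * (e : F₀) = algebraMap A₀ F₀ ϖ * d
    rw [hcd, Algebra.smul_def]
  have F1' : ∀ c : ↥C, (c : F₀) ∈ V.nonunits → c ∈ x := by
    intro c hc
    obtain ⟨d, hd⟩ := F1 c hc
    have h1 : c * e ∈ x := by
      rw [hd]
      exact x.mul_mem_right _ hϖx
    exact (hxp.mem_or_mem h1).resolve_right hex
  -- the local ring
  haveI : IsDomain (Localization.AtPrime x) :=
    IsLocalization.isDomain_localization (Ideal.primeCompl_le_nonZeroDivisors x)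
  haveI : IsNoetherianRing (Localization.AtPrime x) :=
    IsLocalization.isNoetherianRing x.primeCompl (Localization.AtPrime x) inferInstance
  have hinj : Function.Injective (algebraMap ↥C (Localization.AtPrime x)) :=
    IsLocalization.injective (Localization.AtPrime x) (Ideal.primeCompl_le_nonZeroDivisors x)
  have hunit : ∀ m : ↥C, m ∉ x → IsUnit (algebraMap ↥C (Localization.AtPrime x) m) :=
    fun m hm => IsLocalization.map_units (Localization.AtPrime x) (⟨m, hm⟩ : x.primeCompl)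
  have hπC0 : algebraMap A₀ ↥C ϖ ≠ 0 := by
    intro h0
    apply hϖ0
    have h1 : ((algebraMap A₀ ↥C ϖ : ↥C) : F₀) = 0 := by rw [h0]; rfl
    exact h1
  have hπ0 : algebraMap ↥C (Localization.AtPrime x) (algebraMap A₀ ↥C ϖ) ≠ 0 :=
    (map_ne_zero_iff _ hinj).mpr hπC0
  have hπmax : algebraMap ↥C (Localization.AtPrime x) (algebraMap A₀ ↥C ϖ)
      ∈ IsLocalRing.maximalIdeal (Localization.AtPrime x) :=
    (IsLocalization.AtPrime.to_map_mem_maximal_iff (Localization.AtPrime x) x _).mpr hϖx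
  -- (F2)
  have F2 : ∀ c : ↥C, (c : F₀) ∈ V.nonunits →
      algebraMap ↥C (Localization.AtPrime x) (algebraMap A₀ ↥C ϖ) ∣
        algebraMap ↥C (Localization.AtPrime x) c := by
    intro c hc
    obtain ⟨d, hd⟩ := F1 c hc
    have h1 : algebraMap ↥C (Localization.AtPrime x) c * algebraMap ↥C (Localization.AtPrime x) e
        = algebraMap ↥C (Localization.AtPrime x) (algebraMap A₀ ↥C ϖ) *
          algebraMap ↥C (Localization.AtPrime x) d := by
      rw [← map_mul, hd, map_mul]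
    exact ((hunit e hex).dvd_mul_right).mp ⟨_, h1⟩
  -- (F3)
  have hprime : Prime (algebraMap ↥C (Localization.AtPrime x) (algebraMap A₀ ↥C ϖ)) := by
    refine ⟨hπ0, fun hu => (IsLocalRing.mem_maximalIdeal _).mp hπmax hu, fun a b hab => ?_⟩
    obtain ⟨⟨ca, ma⟩, hca⟩ := IsLocalization.surj x.primeCompl a
    obtain ⟨⟨cb, mb⟩, hcb⟩ := IsLocalization.surj x.primeCompl b
    obtain ⟨z, hz⟩ := hab
    obtain ⟨⟨cz, mz⟩, hcz⟩ := IsLocalization.surj x.primeCompl z
    simp only at hca hcb hcz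
    have h1 : ca * cb * (mz : ↥C) = algebraMap A₀ ↥C ϖ * (cz * (ma : ↥C) * (mb : ↥C)) := by
      apply hinj
      simp only [map_mul]
      rw [← hca, ← hcb, ← hcz]
      linear_combination (algebraMap ↥C (Localization.AtPrime x) (ma : ↥C) *
        algebraMap ↥C (Localization.AtPrime x) (mb : ↥C) *
        algebraMap ↥C (Localization.AtPrime x) (mz : ↥C)) * hz
    have h2 : ((ca * cb * (mz : ↥C) : ↥C) : F₀) ∈ V.nonunits := by
      rw [h1]
      exact N1 _ _ N3
    have h3 : ((ca * cb : ↥C) : F₀) ∈ V.nonunits := by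
      rcases N2 _ _ h2 with h | h
      · exact h
      · exact absurd (F1' _ h) mz.2
    rcases N2 _ _ h3 with h | h
    · left
      have h4 := F2 ca h
      rw [← hca] at h4
      exact ((hunit _ ma.2).dvd_mul_right).mp h4
    · right
      have h4 := F2 cb h
      rw [← hcb] at h4
      exact ((hunit _ mb.2).dvd_mul_right).mp h4
  -- (F4)
  have hjac : algebraMap ↥C (Localization.AtPrime x) (algebraMap A₀ ↥C ϖ)
      ∈ Ideal.jacobson (⊥ : Ideal (Localization.AtPrime x)) := by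
    rw [IsLocalRing.jacobson_eq_maximalIdeal ⊥ bot_ne_top]
    exact hπmax
  -- (F5)
  let φ : ↥S →ₐ[A₀] ↥C := Subalgebra.inclusion hSC
  have hφcoe : ∀ s : ↥S, ((φ s : ↥C) : F₀) = (s : F₀) := fun s => rfl
  have hφϖ : φ (algebraMap A₀ ↥S ϖ) = algebraMap A₀ ↥C ϖ := φ.commutes ϖ
  have hxn : ∀ c : ↥C, ∃ t : ↥S, c - φ t ∈ x := by
    intro c
    obtain ⟨t, ht, hct⟩ := hsurj c c.2
    exact ⟨⟨t, ht⟩, F1' _ hct⟩
  have hn : (x.comap φ).IsMaximal := by
    rw [Ideal.isMaximal_iff]
    refine ⟨fun h1 => ?_, fun J s hnJ hs hsJ => ?_⟩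
    · have h2 : φ 1 ∈ x := h1
      rw [map_one] at h2
      exact hx.ne_top ((Ideal.eq_top_iff_one x).mpr h2)
    · have hφs : φ s ∉ x := hs
      obtain ⟨c, i, hi, hci⟩ := hx.exists_inv hφs
      obtain ⟨t, ht⟩ := hxn c
      have h3 : t * s - 1 ∈ x.comap φ := by
        show φ (t * s - 1) ∈ x
        rw [map_sub, map_mul, map_one]
        have h4 : φ t * φ s - 1 = -((c - φ t) * φ s) - i := by
          linear_combination hci
        rw [h4]
        exact x.sub_mem (x.neg_mem (x.mul_mem_right _ ht)) hi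
      have h5 : t * s ∈ J := J.mul_mem_left _ hsJ
      have h6 : (1 : ↥S) = t * s - (t * s - 1) := by ring
      rw [h6]
      exact J.sub_mem h5 (hnJ h3)
  have hϖn : algebraMap A₀ ↥S ϖ ∈ x.comap φ := by
    show φ (algebraMap A₀ ↥S ϖ) ∈ x
    rw [hφϖ]
    exact hϖx
  have hP : ∀ Q : Ideal (Localization.AtPrime x), Q.IsPrime →
      algebraMap ↥C (Localization.AtPrime x) (algebraMap A₀ ↥C ϖ) ∉ Q →
      ∃ g ∈ Q, ∀ y ∈ Q, ∃ c e : Localization.AtPrime x,
        y = g * c + algebraMap ↥C (Localization.AtPrime x) (algebraMap A₀ ↥C ϖ) * e := by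
    intro Q _ _
    obtain ⟨g, hg, s₀, hs₀, hgen⟩ := Fermat.Agent.S18.H72.exists_local_gen
      (algebraMap A₀ ↥S ϖ) hSded (x.comap φ) hn hϖn
      (Ideal.comap ((algebraMap ↥C (Localization.AtPrime x)).comp φ.toRingHom)
        (Q ⊔ Ideal.span {algebraMap ↥C (Localization.AtPrime x) (algebraMap A₀ ↥C ϖ)}))
    have hg' : algebraMap ↥C (Localization.AtPrime x) (φ g) ∈
        Q ⊔ Ideal.span {algebraMap ↥C (Localization.AtPrime x) (algebraMap A₀ ↥C ϖ)} := hg
    obtain ⟨g', hg'Q, w, hw, hgw⟩ := Submodule.mem_sup.mp hg'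
    obtain ⟨d, hd⟩ := Ideal.mem_span_singleton'.mp hw
    refine ⟨g', hg'Q, fun Y hY => ?_⟩
    obtain ⟨⟨y, m⟩, hym⟩ := IsLocalization.surj x.primeCompl Y
    simp only at hym
    obtain ⟨s, hs, hys⟩ := hsurj y y.2
    obtain ⟨w₁, hw₁⟩ := F2 (y - φ ⟨s, hs⟩) hys
    rw [map_sub] at hw₁
    have hsq : (⟨s, hs⟩ : ↥S) ∈ Ideal.comap
        ((algebraMap ↥C (Localization.AtPrime x)).comp φ.toRingHom)
        (Q ⊔ Ideal.span {algebraMap ↥C (Localization.AtPrime x) (algebraMap A₀ ↥C ϖ)}) := by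
      show algebraMap ↥C (Localization.AtPrime x) (φ ⟨s, hs⟩) ∈
        Q ⊔ Ideal.span {algebraMap ↥C (Localization.AtPrime x) (algebraMap A₀ ↥C ϖ)}
      have h1 : algebraMap ↥C (Localization.AtPrime x) (φ ⟨s, hs⟩)
          = Y * algebraMap ↥C (Localization.AtPrime x) (m : ↥C)
            + algebraMap ↥C (Localization.AtPrime x) (algebraMap A₀ ↥C ϖ) * (-w₁) := by
        rw [hym]
        linear_combination -hw₁
      rw [h1]
      exact Submodule.add_mem_sup (Q.mul_mem_right _ hY)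
        (Ideal.mul_mem_right _ _ (Ideal.mem_span_singleton_self _))
    obtain ⟨c, e₁, hce⟩ := hgen _ hsq
    have hce' : algebraMap ↥C (Localization.AtPrime x) (φ s₀) *
        algebraMap ↥C (Localization.AtPrime x) (φ ⟨s, hs⟩)
        = algebraMap ↥C (Localization.AtPrime x) (φ g) *
            algebraMap ↥C (Localization.AtPrime x) (φ c)
          + algebraMap ↥C (Localization.AtPrime x) (algebraMap A₀ ↥C ϖ) *
            algebraMap ↥C (Localization.AtPrime x) (φ e₁) := by
      have h0 := congrArg (fun t => algebraMap ↥C (Localization.AtPrime x) (φ t)) hce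
      simp only [map_mul, map_add, hφϖ] at h0
      exact h0
    have hus : IsUnit (algebraMap ↥C (Localization.AtPrime x) (φ s₀) *
        algebraMap ↥C (Localization.AtPrime x) (m : ↥C)) :=
      (hunit _ hs₀).mul (hunit _ m.2)
    obtain ⟨u, hu⟩ := hus.exists_left_inv
    refine ⟨algebraMap ↥C (Localization.AtPrime x) (φ c) * u,
      (d * algebraMap ↥C (Localization.AtPrime x) (φ c)
        + algebraMap ↥C (Localization.AtPrime x) (φ e₁)
        + algebraMap ↥C (Localization.AtPrime x) (φ s₀) * w₁) * u, ?_⟩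
    have h2 : Y * (algebraMap ↥C (Localization.AtPrime x) (φ s₀) *
        algebraMap ↥C (Localization.AtPrime x) (m : ↥C))
        = g' * algebraMap ↥C (Localization.AtPrime x) (φ c)
          + algebraMap ↥C (Localization.AtPrime x) (algebraMap A₀ ↥C ϖ) *
            (d * algebraMap ↥C (Localization.AtPrime x) (φ c)
              + algebraMap ↥C (Localization.AtPrime x) (φ e₁)
              + algebraMap ↥C (Localization.AtPrime x) (φ s₀) * w₁) := by
      linear_combination (algebraMap ↥C (Localization.AtPrime x) (φ s₀)) * hym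
        + (algebraMap ↥C (Localization.AtPrime x) (φ s₀)) * hw₁ + hce'
        - (algebraMap ↥C (Localization.AtPrime x) (φ c)) * hgw
        - (algebraMap ↥C (Localization.AtPrime x) (φ c)) * hd
    calc Y = Y * (algebraMap ↥C (Localization.AtPrime x) (φ s₀) *
          algebraMap ↥C (Localization.AtPrime x) (m : ↥C)) * u := by
          rw [mul_assoc, mul_comm _ u, hu, mul_one]
      _ = _ := by rw [h2]; ring
  exact Fermat.Agent.S18.H72.ufd_of_nakayama _ hprime hjac hP

/-- M6a with the `VData.Good` clauses (`unif`, `sat`) as hypotheses. -/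
theorem pointUFD_of_oneComp_unif (ϖ : A₀) (hϖ0 : algebraMap A₀ F₀ ϖ ≠ 0) (C : Subalgebra A₀ F₀)
    [IsNoetherianRing ↥C]
    (V V' : ValuationSubring F₀) (hCV : ∀ c ∈ C, c ∈ V) (hCV' : ∀ c ∈ C, c ∈ V')
    (hu : ∀ y : F₀, y ∈ V.nonunits ↔ ∃ d ∈ V, y = ϖ • d)
    (hu' : ∀ y : F₀, y ∈ V'.nonunits ↔ ∃ d ∈ V', y = ϖ • d)
    (hsat : ∀ y : F₀, y ∈ V → y ∈ V' → ϖ • y ∈ C → y ∈ C)
    (S : Subalgebra A₀ F₀) (hSC : S ≤ C)
    (hSded : IsDedekindDomain (↥S ⧸ Ideal.span {algebraMap A₀ ↥S ϖ}))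
    (hsurj : ∀ c ∈ C, ∃ s ∈ S, c - s ∈ V.nonunits)
    (x : Ideal ↥C) (hx : x.IsMaximal) (hϖx : algebraMap A₀ ↥C ϖ ∈ x)
    (hone : ∃ e : ↥C, e ∉ x ∧ (e : F₀) ∈ V'.nonunits) :
    haveI := hx.isPrime
    UniqueFactorizationMonoid (Localization.AtPrime x) :=
  pointUFD_of_oneComp ϖ hϖ0 C V V' hCV hCV' (unif_mem_nonunits ϖ V hu)
    (red_of_unif_sat ϖ hϖ0 C V V' hu hu' hsat) S hSC hSded hsurj x hx hϖx hone

end OneComp

end Fermat.Agent.S34.H9
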