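/-
S34 / Program B' (helper9): interface wrapper for the smooth chart (audit item (A1), report #2474).

From a descended setup `hS : S18.H19.DSetup A₀ O₀ x` over ANY characteristic-zero discrete
valuation ring `A₀` (no hypothesis on ramification, on the residue field or on the fraction
field), with `C = S18.H19.chart A₀ x` the integral closure of `A₀[x]` in `F₀` and `ϖ` a
uniformiser of `A₀`:

* `chart_dedekind`  : `C / ϖ C` is a Dedekind domain (Theorem D; the recipe is inline in
                      `S18.H19.dvr_core`);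
* `chart_noetherian`, `chart_normal`, `chart_fraction` : the chart is a noetherian normal domain
                      with fraction field `F₀`;
* `chart_max_gen`   : at a maximal ideal `n ∋ ϖ` the maximal ideal is generated by `ϖ` and one
                      more element, after inverting an element outside `n` ("regular with
                      parameters `(ϖ, t)`");
* `chart_max_span`  : the same statement in a localisation at `n`;
* `chart_loc_ufd`   : a localisation of the chart at such an `n` is a unique factorisation domain.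

All statements apply verbatim to the chart at infinity (`x⁻¹`, from `DSetup A₀ O₀ x⁻¹`).
-/
import Fermat.Agent.S18.H19.Core2
import Fermat.Agent.S18.H72.LocalUFD

set_option autoImplicit false

open Polynomial

noncomputable section

namespace Fermat.Agent.S34.H9

open Fermat.Agent.S18 Fermat.Agent.S18.H19

variable {A₀ : Type*} [CommRing A₀] [IsDomain A₀] [IsDiscreteValuationRing A₀] [CharZero A₀]
  {F₀ : Type*} [Field F₀] [Algebra A₀ F₀] [FaithfulSMul A₀ F₀]

/-- **Theorem D for the chart of a descended setup**: the special fibre of the chart is a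
Dedekind domain. -/
theorem chart_dedekind (ϖ : A₀) (hϖ : Irreducible ϖ) (O₀ : ValuationSubring F₀) (x : F₀)
    (hS : DSetup A₀ O₀ x) :
    IsDedekindDomain (↥(chart A₀ x) ⧸ Ideal.span {algebraMap A₀ ↥(chart A₀ x) ϖ}) := by
  obtain ⟨S, hSu, hram⟩ := H50.chart_ram ϖ hϖ O₀ x hS
  exact theoremD_chart ϖ hϖ x hS.transc hS.finite (chart_prime ϖ hϖ O₀ x hS).1
    (chart_prime ϖ hϖ O₀ x hS).2 (H6.chart_sep ϖ hϖ O₀ x hS) S hSu hram

/-- The chart is noetherian. -/
theorem chart_noetherian (O₀ : ValuationSubring F₀) (x : F₀) (hS : DSetup A₀ O₀ x) :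
    IsNoetherianRing ↥(chart A₀ x) :=
  H50.chart_isNoetherianRing O₀ x hS

/-- The chart is integrally closed. -/
theorem chart_normal (x : F₀) : IsIntegrallyClosed ↥(chart A₀ x) :=
  H95.chart_isIntegrallyClosed' x

/-- The fraction field of the chart is `F₀`. -/
theorem chart_fraction (O₀ : ValuationSubring F₀) (x : F₀) (hS : DSetup A₀ O₀ x) :
    IsFractionRing ↥(chart A₀ x) F₀ :=
  H95.chart_fractionRing O₀ x hS

/-- The image of the uniformiser in the chart is not zero. -/
theorem chart_unif_ne_zero (ϖ : A₀) (hϖ : Irreducible ϖ) (x : F₀) :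
    algebraMap A₀ ↥(chart A₀ x) ϖ ≠ 0 := by
  intro h
  have h1 : algebraMap A₀ F₀ ϖ = 0 := by
    have h2 := congrArg (Subtype.val : ↥(chart A₀ x) → F₀) h
    simpa using h2
  exact hϖ.ne_zero ((FaithfulSMul.algebraMap_injective A₀ F₀) (by rw [h1, map_zero]))

/-- **Regular parameters at a closed point of the special fibre**: the maximal ideal `n ∋ ϖ` of
the chart is generated by `ϖ` and one element `t`, up to an element `s ∉ n`. -/
theorem chart_max_gen (ϖ : A₀) (hϖ : Irreducible ϖ) (O₀ : ValuationSubring F₀) (x : F₀)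
    (hS : DSetup A₀ O₀ x) (n : Ideal ↥(chart A₀ x)) (hn : n.IsMaximal)
    (hϖn : algebraMap A₀ ↥(chart A₀ x) ϖ ∈ n) :
    ∃ t ∈ n, ∃ s : ↥(chart A₀ x), s ∉ n ∧ ∀ y ∈ n, ∃ c e : ↥(chart A₀ x),
      s * y = t * c + algebraMap A₀ ↥(chart A₀ x) ϖ * e :=
  H72.exists_local_gen (algebraMap A₀ ↥(chart A₀ x) ϖ) (chart_dedekind ϖ hϖ O₀ x hS) n hn hϖn n

/-- **Regular parameters, localised form**: in a localisation `D` of the chart at a maximal ideal
`n ∋ ϖ`, the maximal ideal is `(t, ϖ)`. -/
theorem chart_max_span (ϖ : A₀) (hϖ : Irreducible ϖ) (O₀ : ValuationSubring F₀) (x : F₀)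
    (hS : DSetup A₀ O₀ x) (n : Ideal ↥(chart A₀ x)) (hn : n.IsMaximal)
    (hϖn : algebraMap A₀ ↥(chart A₀ x) ϖ ∈ n)
    (D : Type*) [CommRing D] [Algebra ↥(chart A₀ x) D] [hD : @IsLocalization.AtPrime _ _ D _ _ n
      hn.isPrime] :
    ∃ t ∈ n, Ideal.map (algebraMap ↥(chart A₀ x) D) n =
      Ideal.span {algebraMap ↥(chart A₀ x) D t,
        algebraMap ↥(chart A₀ x) D (algebraMap A₀ ↥(chart A₀ x) ϖ)} := by
  haveI : n.IsPrime := hn.isPrime
  obtain ⟨t, htn, s, hsn, hgen⟩ := chart_max_gen ϖ hϖ O₀ x hS n hn hϖn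
  refine ⟨t, htn, le_antisymm ?_ ?_⟩
  · rw [Ideal.map_le_iff_le_comap]
    intro y hy
    obtain ⟨c, e, hce⟩ := hgen y hy
    rw [Ideal.mem_comap]
    have hsu : IsUnit (algebraMap ↥(chart A₀ x) D s) :=
      IsLocalization.map_units D (⟨s, hsn⟩ : n.primeCompl)
    have h1 : algebraMap ↥(chart A₀ x) D s * algebraMap ↥(chart A₀ x) D y ∈
        Ideal.span {algebraMap ↥(chart A₀ x) D t,
          algebraMap ↥(chart A₀ x) D (algebraMap A₀ ↥(chart A₀ x) ϖ)} := by
      rw [← map_mul, hce, map_add, map_mul, map_mul]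
      refine Ideal.add_mem _ (Ideal.mul_mem_right _ _ (Ideal.subset_span (by simp)))
        (Ideal.mul_mem_right _ _ (Ideal.subset_span (by simp)))
    obtain ⟨w, hw⟩ := hsu.exists_left_inv
    have h2 := Ideal.mul_mem_left _ w h1
    rwa [← mul_assoc, hw, one_mul] at h2
  · rw [Ideal.span_le]
    rintro z (rfl | hz)
    · exact Ideal.mem_map_of_mem _ htn
    · rw [Set.mem_singleton_iff] at hz
      rw [hz]
      exact Ideal.mem_map_of_mem _ hϖn

/-- **Local factoriality**: a localisation of the chart at a maximal ideal `n ∋ ϖ` is a unique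
factorisation domain. -/
theorem chart_loc_ufd (ϖ : A₀) (hϖ : Irreducible ϖ) (O₀ : ValuationSubring F₀) (x : F₀)
    (hS : DSetup A₀ O₀ x) (n : Ideal ↥(chart A₀ x)) (hn : n.IsMaximal)
    (hϖn : algebraMap A₀ ↥(chart A₀ x) ϖ ∈ n)
    (D : Type*) [CommRing D] [IsDomain D] [Algebra ↥(chart A₀ x) D]
    [hD : @IsLocalization.AtPrime _ _ D _ _ n hn.isPrime] :
    UniqueFactorizationMonoid D := by
  haveI : n.IsPrime := hn.isPrime
  haveI : IsNoetherianRing ↥(chart A₀ x) := chart_noetherian O₀ x hS
  exact H72.ufd_localization (algebraMap A₀ ↥(chart A₀ x) ϖ) (chart_unif_ne_zero ϖ hϖ x)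
    (chart_dedekind ϖ hϖ O₀ x hS) n hn hϖn D

end Fermat.Agent.S34.H9
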