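/-
Program B' (S34), helper9: leaf M6a, ASSEMBLY in the vocabulary of `H10.vGood_of_dsetup`.

Setting: `A₀` a discrete valuation ring of characteristic zero with uniformiser `ϖ`, `K ⊆ L`
fields over `A₀` (`K` the function field of the lower level, embedded by `α`), `x₀ ∈ K` the
coordinate, `O₀` its Gauss ring (`DSetup A₀ O₀ x₀`, `DSetup A₀ O₀ x₀⁻¹`), `V₁`, `V₂` the two
valuation rings of `L` above `O₀` (`hc₁`, `hres₁ = TwoExt.res₁`), `w` an involution of `L` over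
`A₀` exchanging them (`hwV`, `hww`), `j = α x₀`, and the two charts `chart A₀ j`,
`chart A₀ j⁻¹` of `L` with `H10.VGood`.

* `pointUFD_left_of_chart` : a closed point `x ∋ ϖ` of a chart `chart A₀ (α x₀)` lying on the
  component of `V₁` only has a factorial local ring
  (`H9.pointUFD_of_oneComp` + `H97.chartImage_*`);
* `pointUFD_right_of_inLoc` : a closed point `x ∋ ϖ` of any chart `C` lying on the component of
  `V₂` only has a factorial local ring, as soon as `w (α (chart A₀ x₀))` lies in the local ring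
  of `C` at `x` (`H42.pointUFD_of_oneComp_local`; the hypotheses `hSm`, `hres` are the
  `w`-mirrors of `H97.chart_comap_of_comap` and of `TwoExt.res₁` + `H97.chart_loc_not_dvd`);
* `pointUFD_finite_of_not_both` : every closed point `x ∋ ϖ` of the finite chart
  `chart A₀ (α x₀)` which does not lie on both components has a factorial local ring
  (extra input: `w j` is integral over `A₀[j]`, the modular equation);
* `pointUFD_infinite_of_not_both` : the same for the chart at infinity `chart A₀ (α x₀)⁻¹`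
  (extra input: the modular equation `Φ (j, w j) = 0`; cusps and non-cuspidal points are
  treated separately with `H42.inLoc_map_chart_inv_of_cusp` / `H42.inLoc_map_chart_of_noncusp`).

The conclusions are `H30.PointUFD C x hx.isPrime` unfolded.
-/
import Fermat.Agent.S34.H9.OneComp
import Fermat.Agent.S34.H10.M3
import Fermat.Agent.S34.H97.ChartLoc
import Fermat.Agent.S34.H42.CuspLoc

set_option autoImplicit false
set_option linter.style.haveILetI false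

namespace Fermat.Agent.S34.H9

open Fermat.Agent.S18 Fermat.Agent.S18.H19 Fermat.Agent.S34.H10 Fermat.Agent.S28

/-- Transport of the maximal ideal of a valuation subring along an automorphism. -/
theorem mem_nonunits_iff_of_equiv {L : Type*} [Field L] (V₁ V₂ : ValuationSubring L)
    (w : L ≃+* L) (hwV : ∀ g : L, g ∈ V₂ ↔ w g ∈ V₁) (g : L) :
    g ∈ V₂.nonunits ↔ w g ∈ V₁.nonunits := by
  rw [ValuationSubring.mem_nonunits_iff_or, ValuationSubring.mem_nonunits_iff_or, ← map_inv₀,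
    ← hwV]
  constructor
  · rintro (h | h)
    · left
      rw [h, map_zero]
    · right
      exact h
  · rintro (h | h)
    · left
      exact w.injective (by rw [h, map_zero])
    · right
      exact h

/-- The uniformiser does not vanish in the top field. -/
theorem unif_top_ne_zero {A₀ : Type*} [CommRing A₀] (K : Type*) {L : Type*} [Field K] [Field L]
    [Algebra A₀ K] [Algebra A₀ L] [Algebra K L] [IsScalarTower A₀ K L] [FaithfulSMul A₀ K]
    {ϖ : A₀} (hϖ0 : ϖ ≠ 0) : algebraMap A₀ L ϖ ≠ 0 := by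
  rw [IsScalarTower.algebraMap_apply A₀ K L]
  intro h
  have h1 : algebraMap A₀ K ϖ = 0 := (map_eq_zero_iff _ (algebraMap K L).injective).mp h
  exact hϖ0 (FaithfulSMul.algebraMap_injective A₀ K (by rw [h1, map_zero]))

section Asm

variable {A₀ : Type*} [CommRing A₀] [IsDomain A₀] [IsDiscreteValuationRing A₀] [CharZero A₀]
  {K L : Type*} [Field K] [Field L] [Algebra A₀ K] [Algebra A₀ L] [Algebra K L]
  [IsScalarTower A₀ K L] [FaithfulSMul A₀ K]

/-- **M6a, first component.**  A closed point `x ∋ ϖ` of the chart of `j = α x₀` which lies on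
the component of `V₁` only has a factorial local ring. -/
theorem pointUFD_left_of_chart (ϖ : A₀) (hϖ : Irreducible ϖ) (O₀ : ValuationSubring K) (x₀ : K)
    (hS : DSetup A₀ O₀ x₀) (V₁ V₂ : ValuationSubring L)
    (hc₁ : ∀ v : K, algebraMap K L v ∈ V₁ ↔ v ∈ O₀)
    (hres₁ : ∀ g ∈ V₁, ∃ v ∈ O₀, g - algebraMap K L v ∈ V₁.nonunits)
    (j : L) (hj : algebraMap K L x₀ = j) [IsNoetherianRing ↥(chart A₀ j)]
    (hu₁ : IsUnif ϖ V₁) (hu₂ : IsUnif ϖ V₂)
    (hle₁ : ∀ c ∈ chart A₀ j, c ∈ V₁) (hle₂ : ∀ c ∈ chart A₀ j, c ∈ V₂)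
    (hsat : ∀ y : L, y ∈ V₁ → y ∈ V₂ → ϖ • y ∈ chart A₀ j → y ∈ chart A₀ j)
    (x : Ideal ↥(chart A₀ j)) (hx : x.IsMaximal) (hϖx : algebraMap A₀ ↥(chart A₀ j) ϖ ∈ x)
    (hone : ∃ e : ↥(chart A₀ j), e ∉ x ∧ (e : L) ∈ V₂.nonunits) :
    haveI := hx.isPrime
    UniqueFactorizationMonoid (Localization.AtPrime x) := by
  subst hj
  have hϖ0 : algebraMap A₀ L ϖ ≠ 0 := unif_top_ne_zero K hϖ.ne_zero
  have hc₁' : V₁.comap (algebraMap K L) = O₀ :=
    SetLike.ext fun v => ValuationSubring.mem_comap.trans (hc₁ v)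
  exact pointUFD_of_oneComp_unif ϖ hϖ0 (chart A₀ (algebraMap K L x₀)) V₁ V₂ hle₁ hle₂ hu₁ hu₂
    hsat ((chart A₀ x₀).map (IsScalarTower.toAlgHom A₀ K L)) (H97.chartImage_le x₀)
    (H97.chartImage_dedekind ϖ hϖ O₀ x₀ hS)
    (H97.chartImage_surj ϖ hϖ O₀ x₀ hS V₁ hc₁' hres₁) x hx hϖx hone

/-- **M6a, second component.**  A closed point `x ∋ ϖ` of a chart `C` of `L` which lies on the
component of `V₂ = w⁻¹ V₁` only has a factorial local ring, provided the `w`-image of the chart of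
`x₀` (the image of the lower-level chart by the second degeneracy map) lies in the local ring of
`C` at `x`. -/
theorem pointUFD_right_of_inLoc (ϖ : A₀) (hϖ : Irreducible ϖ) (O₀ : ValuationSubring K) (x₀ : K)
    (hS : DSetup A₀ O₀ x₀) (V₁ V₂ : ValuationSubring L)
    (hc₁ : ∀ v : K, algebraMap K L v ∈ V₁ ↔ v ∈ O₀)
    (hres₁ : ∀ g ∈ V₁, ∃ v ∈ O₀, g - algebraMap K L v ∈ V₁.nonunits)
    (w : L ≃+* L) (hwA : ∀ a : A₀, w (algebraMap A₀ L a) = algebraMap A₀ L a)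
    (hwV : ∀ g : L, g ∈ V₂ ↔ w g ∈ V₁) (hww : ∀ g : L, w (w g) = g)
    (C : Subalgebra A₀ L) [IsNoetherianRing ↥C]
    (hfrac : ∀ y : L, ∃ a ∈ C, ∃ b ∈ C, b ≠ 0 ∧ y = a / b)
    (hu₁ : IsUnif ϖ V₁) (hu₂ : IsUnif ϖ V₂)
    (hle₁ : ∀ c ∈ C, c ∈ V₁) (hle₂ : ∀ c ∈ C, c ∈ V₂)
    (hsat : ∀ y : L, y ∈ V₁ → y ∈ V₂ → ϖ • y ∈ C → y ∈ C)
    (x : Ideal ↥C) (hx : x.IsMaximal) (hϖx : algebraMap A₀ ↥C ϖ ∈ x)
    (hone : ∃ e : ↥C, e ∉ x ∧ (e : L) ∈ V₁.nonunits)
    (hloc : ∀ s ∈ chart A₀ x₀, H42.InLoc C x (w (algebraMap K L s))) :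
    haveI := hx.isPrime
    UniqueFactorizationMonoid (Localization.AtPrime x) := by
  have hϖ0 : algebraMap A₀ L ϖ ≠ 0 := unif_top_ne_zero K hϖ.ne_zero
  have hc₁' : V₁.comap (algebraMap K L) = O₀ :=
    SetLike.ext fun v => ValuationSubring.mem_comap.trans (hc₁ v)
  have hnu : ∀ g : L, g ∈ V₂.nonunits ↔ w g ∈ V₁.nonunits :=
    mem_nonunits_iff_of_equiv V₁ V₂ w hwV
  -- the second degeneracy map on the lower-level chart
  let β : ↥(chart A₀ x₀) →+* L :=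
    ((w : L →+* L).comp (algebraMap K L)).comp (chart A₀ x₀).val.toRingHom
  have hβ : ∀ s : ↥(chart A₀ x₀), β s = w (algebraMap K L (s : K)) := fun s => rfl
  have hβϖ : β (algebraMap A₀ ↥(chart A₀ x₀) ϖ) = algebraMap A₀ L ϖ := by
    rw [hβ]
    have h1 : ((algebraMap A₀ ↥(chart A₀ x₀) ϖ : ↥(chart A₀ x₀)) : K) = algebraMap A₀ K ϖ := rfl
    rw [h1, ← IsScalarTower.algebraMap_apply A₀ K L, hwA]
  refine H42.pointUFD_of_oneComp_local ϖ hϖ0 C hfrac V₂ V₁ hle₂ hle₁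
    (unif_mem_nonunits ϖ V₂ hu₂)
    (red_of_unif_sat ϖ hϖ0 C V₂ V₁ hu₂ hu₁ (fun y h2 h1 => hsat y h1 h2)) x hx hϖx hone β
    (algebraMap A₀ ↥(chart A₀ x₀) ϖ) hβϖ (chart_dedekind ϖ hϖ O₀ x₀ hS) ?_ ?_ ?_
  · intro s
    exact hloc s.1 s.2
  · intro s hs
    rw [hβ, hnu, hww] at hs
    obtain ⟨s', hs', hss'⟩ := H97.chart_comap_of_comap ϖ hϖ O₀ x₀ hS V₁ hc₁' s.1 s.2 hs
    refine ⟨⟨s', hs'⟩, Subtype.ext ?_⟩
    rw [hss', Algebra.smul_def]
    rfl
  · intro g hg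
    obtain ⟨v, hv, hgv⟩ := hres₁ (w g) ((hwV g).mp hg)
    obtain ⟨a, b, hb, hvb⟩ := H97.chart_loc_not_dvd ϖ hϖ O₀ x₀ hS v hv
    refine ⟨a, b, hb, ?_⟩
    rw [hnu, map_sub, map_mul, hβ, hβ, hww, hww]
    have h2 : algebraMap K L (a : K) = algebraMap K L v * algebraMap K L (b : K) := by
      rw [← map_mul]
      congr 1
      exact hvb.symm
    have h1 : w g * algebraMap K L (b : K) - algebraMap K L (a : K)
        = (w g - algebraMap K L v) * algebraMap K L (b : K) := by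
      rw [h2]
      ring
    rw [h1]
    exact nonunits_mul_mem V₁ hgv ((hc₁ _).mpr (H6.chart_le O₀ x₀ hS _ b.2))

/-- **M6a on the finite chart.**  Every closed point `x ∋ ϖ` of the chart of `j = α x₀` which does
not lie on both components has a factorial local ring. -/
theorem pointUFD_finite_of_not_both (ϖ : A₀) (hϖ : Irreducible ϖ) (O₀ : ValuationSubring K)
    (x₀ : K) (hS : DSetup A₀ O₀ x₀) (V₁ V₂ : ValuationSubring L)
    (hc₁ : ∀ v : K, algebraMap K L v ∈ V₁ ↔ v ∈ O₀)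
    (hres₁ : ∀ g ∈ V₁, ∃ v ∈ O₀, g - algebraMap K L v ∈ V₁.nonunits)
    (w : L ≃+* L) (hwA : ∀ a : A₀, w (algebraMap A₀ L a) = algebraMap A₀ L a)
    (hwV : ∀ g : L, g ∈ V₂ ↔ w g ∈ V₁) (hww : ∀ g : L, w (w g) = g)
    (C₂ : Subalgebra A₀ L)
    (hG : VGood ϖ (algebraMap K L x₀) (chart A₀ (algebraMap K L x₀)) C₂ V₁ V₂)
    [IsNoetherianRing ↥(chart A₀ (algebraMap K L x₀))]
    (hfrac : ∀ y : L, ∃ a ∈ chart A₀ (algebraMap K L x₀), ∃ b ∈ chart A₀ (algebraMap K L x₀),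
      b ≠ 0 ∧ y = a / b)
    (hwj : w (algebraMap K L x₀) ∈ chart A₀ (algebraMap K L x₀))
    (x : Ideal ↥(chart A₀ (algebraMap K L x₀))) (hx : x.IsMaximal)
    (hϖx : algebraMap A₀ ↥(chart A₀ (algebraMap K L x₀)) ϖ ∈ x)
    (hnot : ¬ ((∀ c : ↥(chart A₀ (algebraMap K L x₀)), (c : L) ∈ V₁.nonunits → c ∈ x) ∧
      (∀ c : ↥(chart A₀ (algebraMap K L x₀)), (c : L) ∈ V₂.nonunits → c ∈ x))) :
    haveI := hx.isPrime
    UniqueFactorizationMonoid (Localization.AtPrime x) := by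
  haveI hxp : x.IsPrime := hx.isPrime
  haveI hfaith : FaithfulSMul A₀ L := by
    rw [faithfulSMul_iff_algebraMap_injective, IsScalarTower.algebraMap_eq A₀ K L]
    exact (algebraMap K L).injective.comp (FaithfulSMul.algebraMap_injective A₀ K)
  rcases not_and_or.mp hnot with h | h
  · -- `x` lies on the component of `V₂` only
    obtain ⟨e, he⟩ := not_forall.mp h
    obtain ⟨heV, hex⟩ := Classical.not_imp.mp he
    haveI : IsIntegrallyClosed ↥(chart A₀ (algebraMap K L x₀)) :=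
      H95.chart_isIntegrallyClosed' (algebraMap K L x₀)
    refine pointUFD_right_of_inLoc ϖ hϖ O₀ x₀ hS V₁ V₂ hc₁ hres₁ w hwA hwV hww
      (chart A₀ (algebraMap K L x₀)) hfrac hG.unif₁ hG.unif₂ hG.le₁₁ hG.le₁₂ hG.sat₁ x hx hϖx
      ⟨e, hex, heV⟩ ?_
    intro s hs
    refine H42.chart_le_inLoc (chart A₀ (algebraMap K L x₀)) hfrac x (w (algebraMap K L x₀))
      (H42.inLoc_of_mem _ x hwj) _ ?_
    exact H42.map_mem_chart_of_hom ((w : L →+* L).comp (algebraMap K L))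
      (fun a => by
        rw [RingHom.comp_apply, ← IsScalarTower.algebraMap_apply A₀ K L]
        exact hwA a) x₀ hs
  · -- `x` lies on the component of `V₁` only
    obtain ⟨e, he⟩ := not_forall.mp h
    obtain ⟨heV, hex⟩ := Classical.not_imp.mp he
    exact pointUFD_left_of_chart ϖ hϖ O₀ x₀ hS V₁ V₂ hc₁ hres₁ (algebraMap K L x₀) rfl
      hG.unif₁ hG.unif₂ hG.le₁₁ hG.le₁₂ hG.sat₁ x hx hϖx ⟨e, hex, heV⟩

/-- **M6a on the chart at infinity.**  Every closed point `x ∋ ϖ` of the chart of `j⁻¹`,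
`j = α x₀`, which does not lie on both components has a factorial local ring (cusps included). -/
theorem pointUFD_infinite_of_not_both (ϖ : A₀) (hϖ : Irreducible ϖ) (O₀ : ValuationSubring K)
    (x₀ : K) (hS : DSetup A₀ O₀ x₀) (hS' : DSetup A₀ O₀ x₀⁻¹) (V₁ V₂ : ValuationSubring L)
    (hc₁ : ∀ v : K, algebraMap K L v ∈ V₁ ↔ v ∈ O₀)
    (hres₁ : ∀ g ∈ V₁, ∃ v ∈ O₀, g - algebraMap K L v ∈ V₁.nonunits)
    (w : L ≃+* L) (hwA : ∀ a : A₀, w (algebraMap A₀ L a) = algebraMap A₀ L a)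
    (hwV : ∀ g : L, g ∈ V₂ ↔ w g ∈ V₁) (hww : ∀ g : L, w (w g) = g)
    (C₁ : Subalgebra A₀ L)
    (hG : VGood ϖ (algebraMap K L x₀) C₁ (chart A₀ (algebraMap K L x₀)⁻¹) V₁ V₂)
    [IsNoetherianRing ↥(chart A₀ (algebraMap K L x₀)⁻¹)]
    (hfrac : ∀ y : L, ∃ a ∈ chart A₀ (algebraMap K L x₀)⁻¹,
      ∃ b ∈ chart A₀ (algebraMap K L x₀)⁻¹, b ≠ 0 ∧ y = a / b)
    {q : ℕ} (hq : q ≠ 0) {Φ : Polynomial (Polynomial ℤ)} (hΦ : IsModPoly q Φ)
    (h12 : (evalY (algebraMap K L x₀) Φ).eval (w (algebraMap K L x₀)) = 0)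
    (x : Ideal ↥(chart A₀ (algebraMap K L x₀)⁻¹)) (hx : x.IsMaximal)
    (hϖx : algebraMap A₀ ↥(chart A₀ (algebraMap K L x₀)⁻¹) ϖ ∈ x)
    (hnot : ¬ ((∀ c : ↥(chart A₀ (algebraMap K L x₀)⁻¹), (c : L) ∈ V₁.nonunits → c ∈ x) ∧
      (∀ c : ↥(chart A₀ (algebraMap K L x₀)⁻¹), (c : L) ∈ V₂.nonunits → c ∈ x))) :
    haveI := hx.isPrime
    UniqueFactorizationMonoid (Localization.AtPrime x) := by
  haveI hxp : x.IsPrime := hx.isPrime
  haveI hfaith : FaithfulSMul A₀ L := by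
    rw [faithfulSMul_iff_algebraMap_injective, IsScalarTower.algebraMap_eq A₀ K L]
    exact (algebraMap K L).injective.comp (FaithfulSMul.algebraMap_injective A₀ K)
  have hx0 : x₀ ≠ 0 := by
    rintro rfl
    exact hS.transc isAlgebraic_zero
  have hj0 : algebraMap K L x₀ ≠ 0 := (map_ne_zero_iff _ (algebraMap K L).injective).mpr hx0
  have hwj0 : w (algebraMap K L x₀) ≠ 0 := (map_ne_zero_iff _ w.injective).mpr hj0
  have hf : ∀ a : A₀, ((w : L →+* L).comp (algebraMap K L)) (algebraMap A₀ K a)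
      = algebraMap A₀ L a := fun a => by
    rw [RingHom.comp_apply, ← IsScalarTower.algebraMap_apply A₀ K L]
    exact hwA a
  rcases not_and_or.mp hnot with h | h
  · -- `x` lies on the component of `V₂` only
    obtain ⟨e, he⟩ := not_forall.mp h
    obtain ⟨heV, hex⟩ := Classical.not_imp.mp he
    haveI : IsIntegrallyClosed ↥(chart A₀ (algebraMap K L x₀)⁻¹) :=
      H95.chart_isIntegrallyClosed' (algebraMap K L x₀)⁻¹
    by_cases hsx : (⟨(algebraMap K L x₀)⁻¹, self_mem_chart A₀ (algebraMap K L x₀)⁻¹⟩ :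
        ↥(chart A₀ (algebraMap K L x₀)⁻¹)) ∈ x
    · -- a cusp
      exact pointUFD_right_of_inLoc ϖ hϖ O₀ x₀⁻¹ hS' V₁ V₂ hc₁ hres₁ w hwA hwV hww
        (chart A₀ (algebraMap K L x₀)⁻¹) hfrac hG.unif₁ hG.unif₂ hG.le₂₁ hG.le₂₂ hG.sat₂ x hx hϖx
        ⟨e, hex, heV⟩ (fun s hs =>
          H42.inLoc_map_chart_inv_of_cusp (chart A₀ (algebraMap K L x₀)⁻¹) hfrac hq hΦ
            (algebraMap K L x₀) (w (algebraMap K L x₀)) hj0 hwj0 h12
            (self_mem_chart A₀ (algebraMap K L x₀)⁻¹) x hsx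
            ((w : L →+* L).comp (algebraMap K L)) hf x₀ rfl s hs)
    · -- not a cusp
      exact pointUFD_right_of_inLoc ϖ hϖ O₀ x₀ hS V₁ V₂ hc₁ hres₁ w hwA hwV hww
        (chart A₀ (algebraMap K L x₀)⁻¹) hfrac hG.unif₁ hG.unif₂ hG.le₂₁ hG.le₂₂ hG.sat₂ x hx hϖx
        ⟨e, hex, heV⟩ (fun s hs =>
          H42.inLoc_map_chart_of_noncusp (chart A₀ (algebraMap K L x₀)⁻¹) hfrac hΦ
            (algebraMap K L x₀) (w (algebraMap K L x₀)) hj0 h12
            (self_mem_chart A₀ (algebraMap K L x₀)⁻¹) x hsx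
            ((w : L →+* L).comp (algebraMap K L)) hf x₀ rfl s hs)
  · -- `x` lies on the component of `V₁` only
    obtain ⟨e, he⟩ := not_forall.mp h
    obtain ⟨heV, hex⟩ := Classical.not_imp.mp he
    exact pointUFD_left_of_chart ϖ hϖ O₀ x₀⁻¹ hS' V₁ V₂ hc₁ hres₁ (algebraMap K L x₀)⁻¹
      (map_inv₀ _ _) hG.unif₁ hG.unif₂ hG.le₂₁ hG.le₂₂ hG.sat₂ x hx hϖx ⟨e, hex, heV⟩

end Asm

end Fermat.Agent.S34.H9
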