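/-
Program B' (S34), leaf (M6a), CONCRETE form for the base function `j(q^M)` — helper9.

The one-component points of the concrete model `H30.stdV` are factorial points, for the base
function `x₀ = jtop M` (`q ≥ 5`): instantiation of helper42's chart theorems
(`H42.pointUFD_chart_of_not_both`, `H42.pointUFD_chartInv_of_not_both`) at
`K = ratForm M K₀`, `L = ratForm (M q) K₀`, `α = H64.alphaForm`, `β = H64.betaForm`.

* `evalY_alpha_beta_jtop` : the modular equations between `α j(q^M) = j(q^M)` and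
  `β j(q^M) = j(q^{M q})` in `F_{M q}`;
* `jtop_kronecker₁`, `jtop_kronecker₂` : the Kronecker congruences for `j(q^M)` at the two Gauss
  rings;
* `oneComp_jtop` : `(stdV …).OneComp` from the chart leaf and the semi-local leaf;
* `cusp_jtop` : `(stdV …).Cusp` from the chart leaf and the semi-local leaf.
-/
import Fermat.Agent.S34.H30.Leaves
import Fermat.Agent.S34.H42.OneCompChart
import Fermat.Agent.S34.H42.CuspComp
import Fermat.Agent.S34.H64.Desc
import Fermat.Agent.S37.H71.VGauss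
import Fermat.Agent.S34.H10.M3
import Fermat.Agent.S34.H42.OneCompRel

set_option autoImplicit false
set_option linter.style.haveILetI false
set_option linter.unusedSectionVars false
set_option linter.unusedVariables false

open AlgebraicCurve ModularCurve

noncomputable section

namespace Fermat.Agent.S34.H9

open Fermat.Agent.S18 Fermat.Agent.S18.H74 Fermat.Agent.S18.H19 Fermat.Agent.S34.H19
  Fermat.Agent.S34.H30

/-- The modular equations between `α j(q^M)` and `β j(q^M)` in `F_{M q}`. -/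
theorem evalY_alpha_beta_jtop (M q : ℕ) [NeZero M] [Fact q.Prime]
    {Φ : Polynomial (Polynomial ℤ)} (hΦ : Fermat.Agent.S28.IsModPoly q Φ) :
    (Fermat.Agent.S28.evalY (heckeAlphaBar Kb M q (H28.jtop M)) Φ).eval
        (heckeBetaBar Kb M q (H28.jtop M)) = 0 ∧
      (Fermat.Agent.S28.evalY (heckeBetaBar Kb M q (H28.jtop M)) Φ).eval
        (heckeAlphaBar Kb M q (H28.jtop M)) = 0 := by
  have hq : q.Prime := Fact.out
  haveI : NeZero q := ⟨hq.ne_zero⟩
  haveI : NeZero (M * q) := ⟨mul_ne_zero (NeZero.ne M) hq.ne_zero⟩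
  have hd : M ∣ M * q := dvd_mul_right M q
  have hdp : M * q ∣ M * q := dvd_rfl
  have e1 : heckeAlphaBar Kb M q (H28.jtop M) = H28.jFN (M * q) M hd := Subtype.ext rfl
  have e2 : heckeBetaBar Kb M q (H28.jtop M) = H28.jFN (M * q) (M * q) hdp :=
    Fermat.Agent.S37.H71.beta_jtop M q
  rw [e1, e2]
  exact Fermat.Agent.S34.H42.evalY_jFN (M * q) hq M hd hdp hΦ

/-- The Kronecker congruences at the two Gauss rings for a RATIONAL function of the Gauss ring of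
level `M` (the Galois twist is trivial on rational functions). -/
theorem kronecker_rat {M q : ℕ} [NeZero M] [Fact q.Prime] {hqM : ¬ q ∣ M}
    {A : ValuationSubring Kb} {hA : A.LiesOverPrime q} {O₁ : ValuationSubring (FN (M * q))}
    {w : FN (M * q) ≃+* FN (M * q)} (hTG : Fermat.Agent.S34.H64.TwoGauss M q hqM A hA O₁ w)
    (f : FN M) (hf : f ∈ Set.range (ratEmb M))
    (hfO : f ∈ Fermat.Agent.S18.H66.gaussO A M hA hqM) :
    heckeBetaBar Kb M q f - heckeAlphaBar Kb M q f ^ q ∈ O₁.nonunits ∧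
      heckeAlphaBar Kb M q f - heckeBetaBar Kb M q f ^ q ∈ (H61.gaussTwo M q O₁ w).nonunits := by
  obtain ⟨g, rfl⟩ := hf
  obtain ⟨s, hs⟩ := Fermat.Agent.S54.H94.exists_isFrobeniusAt_of_liesOverPrime A
    (Fact.out : q.Prime) hA
  have h1 := hTG.kronecker s hs _ hfO
  have h2 := hTG.kronecker₂ s hs _ hfO
  rw [H61.arithmeticRingAut_ratEmb] at h1 h2
  exact ⟨h1, h2⟩

/-- **One-component points of the concrete model, general base function.**  `x₀` an admissible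
base function of level `M` with a relation `j(q^M) · D(x₀) = N(x₀)` (`N`, `D` monic integral
polynomials, `deg D < deg N`, coprime modulo `q`): the closed points of the special fibre of
both charts of `stdV` which are not on both components are factorial points. -/
theorem oneComp_of_rel (M q : ℕ) [NeZero M] [Fact q.Prime] (hqM : ¬ q ∣ M)
    (A : ValuationSubring Kb) (hA : A.LiesOverPrime q) (hAtop : A ≠ ⊤)
    (O₁ : ValuationSubring (FN (M * q))) (w : FN (M * q) ≃+* FN (M * q))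
    (hTG : Fermat.Agent.S34.H64.TwoGauss M q hqM A hA O₁ w)
    (x₀ : FN M) (hx₀ : IsBase M q hqM A hA x₀)
    (N D : Polynomial ℤ)
    (hrel : H28.jtop M * Polynomial.aeval x₀ D = Polynomial.aeval x₀ N)
    (hN : N.Monic) (hD : D.Monic) (hdeg : D.natDegree < N.natDegree)
    (hcop : ∃ (a b : Polynomial ℤ) (r : ℕ), ¬ q ∣ r ∧ a * N + b * D = Polynomial.C (r : ℤ))
    (K₀ : IntermediateField ℚ Kb) [FiniteDimensional ℚ K₀] [Normal ℚ K₀]
    (ϖ : ↥(A.comap (algebraMap K₀ Kb))) (hϖ : Irreducible ϖ)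
    (j : ↥(H61.ratForm (M * q) K₀))
    (hj : (j : FN (M * q)) = heckeAlphaBar Kb M q x₀) (σ : Kb ≃ₐ[ℚ] Kb)
    (hchart : letI := algComap (A.comap (algebraMap K₀ Kb)) (H61.ratForm (M * q) K₀)
      Transcendental ↥(A.comap (algebraMap K₀ Kb)) j ∧
        Module.Finite ↥(ratSub ↥(A.comap (algebraMap K₀ Kb)) j) ↥(H61.ratForm (M * q) K₀))
    (hsemi : (stdV M q A hAtop O₁ w K₀ ϖ j σ).Semi) :
    (stdV M q A hAtop O₁ w K₀ ϖ j σ).OneComp := by
  have hq : q.Prime := Fact.out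
  haveI : NeZero q := ⟨hq.ne_zero⟩
  letI algL := algComap (A.comap (algebraMap K₀ Kb)) (H61.ratForm (M * q) K₀)
  letI algK := algComap (A.comap (algebraMap K₀ Kb)) (H61.ratForm M K₀)
  letI algE : Algebra ↥(H61.ratForm M K₀) ↥(H61.ratForm (M * q) K₀) :=
    (H64.alphaForm M q K₀).toAlgebra
  letI modE : Module ↥(H61.ratForm M K₀) ↥(H61.ratForm (M * q) K₀) := algE.toModule
  letI smulE : SMul ↥(H61.ratForm M K₀) ↥(H61.ratForm (M * q) K₀) := algE.toSMul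
  haveI := Fermat.Agent.S34.H78.isDVR_comap hAtop K₀
  haveI := Fermat.Agent.S34.H78.faithfulSMul_comap A K₀ (H61.ratForm M K₀)
  haveI := Fermat.Agent.S34.H78.faithfulSMul_comap A K₀ (H61.ratForm (M * q) K₀)
  haveI : CharZero ↥(A.comap (algebraMap K₀ Kb)) := inferInstance
  haveI : IsScalarTower ↥(A.comap (algebraMap K₀ Kb)) ↥(H61.ratForm M K₀)
      ↥(H61.ratForm (M * q) K₀) :=
    IsScalarTower.of_algebraMap_eq (fun a => (H64.alphaForm_algebraMap K₀ (a : K₀)).symm)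
  -- the base function and `j(q^M)` on the `K₀`-form
  obtain ⟨g, hg⟩ := hx₀.1
  have hxmem : x₀ ∈ H61.ratForm M K₀ := by
    rw [← hg]
    exact H61.ratEmb_mem_ratForm M K₀ g
  have hjmem : H28.jtop M ∈ H61.ratForm M K₀ := H61.ratEmb_mem_ratForm M K₀ (jqNFull M)
  obtain ⟨hS, hS'⟩ := hx₀.2 K₀ hxmem
  have hjx : j = algebraMap ↥(H61.ratForm M K₀) ↥(H61.ratForm (M * q) K₀) ⟨x₀, hxmem⟩ :=
    Subtype.ext hj
  subst hjx
  haveI : IsDiscreteValuationRing ↥((Fermat.Agent.S18.H66.gaussO A M hA hqM).comap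
      (algebraMap ↥(H61.ratForm M K₀) (FN M))) :=
    Fermat.Agent.S34.H10.isDiscreteValuationRing_of_dsetup hϖ hS
  have hT := H64.twoExt_ratForm hTG K₀
  have hCG := Fermat.Agent.S34.H44.chartsGood _ hchart.1 hchart.2
  haveI := hCG.icl₁
  haveI := hCG.icl₂
  haveI := hCG.noeth₁
  haveI := hCG.noeth₂
  -- the second degeneracy map
  have hβA : ∀ a : ↥(A.comap (algebraMap K₀ Kb)),
      H64.betaForm M q K₀ (algebraMap ↥(A.comap (algebraMap K₀ Kb)) ↥(H61.ratForm M K₀) a) =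
        algebraMap ↥(A.comap (algebraMap K₀ Kb)) ↥(H61.ratForm (M * q) K₀) a :=
    fun a => H64.betaForm_algebraMap K₀ (a : K₀)
  have hsup := Fermat.Agent.S34.H42.beta_supply _ _ _ (H64.alphaForm_mem_comap_iff hTG K₀)
    hT.res₁ (H64.wForm hTG K₀) (H64.mem_gaussTwo_comap_iff hTG K₀) (H64.wForm_wForm hTG K₀)
  have hresβ : ∀ g ∈ (H61.gaussTwo M q O₁ w).comap
      (algebraMap ↥(H61.ratForm (M * q) K₀) (FN (M * q))),
      ∃ v ∈ (Fermat.Agent.S18.H66.gaussO A M hA hqM).comap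
        (algebraMap ↥(H61.ratForm M K₀) (FN M)),
        g - H64.betaForm M q K₀ v ∈ ((H61.gaussTwo M q O₁ w).comap
          (algebraMap ↥(H61.ratForm (M * q) K₀) (FN (M * q)))).nonunits := by
    intro g hg
    obtain ⟨v, hv, h⟩ := hsup.2 g hg
    refine ⟨v, hv, ?_⟩
    rw [← H64.wForm_alphaForm hTG K₀ v]
    exact h
  -- the polynomials over the base
  have hN' : (N.map (Int.castRingHom ↥(A.comap (algebraMap K₀ Kb)))).Monic := hN.map _
  have hD' : (D.map (Int.castRingHom ↥(A.comap (algebraMap K₀ Kb)))).Monic := hD.map _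
  have hdeg' : (D.map (Int.castRingHom ↥(A.comap (algebraMap K₀ Kb)))).natDegree <
      (N.map (Int.castRingHom ↥(A.comap (algebraMap K₀ Kb)))).natDegree := by
    rw [hN.natDegree_map, hD.natDegree_map]
    exact hdeg
  have haev : ∀ P : Polynomial ℤ,
      ((Polynomial.aeval (⟨x₀, hxmem⟩ : ↥(H61.ratForm M K₀))
        (P.map (Int.castRingHom ↥(A.comap (algebraMap K₀ Kb)))) : ↥(H61.ratForm M K₀)) : FN M) =
        Polynomial.aeval x₀ P := by
    intro P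
    have h1 : Polynomial.aeval (⟨x₀, hxmem⟩ : ↥(H61.ratForm M K₀))
        (P.map (Int.castRingHom ↥(A.comap (algebraMap K₀ Kb)))) =
        Polynomial.aeval (⟨x₀, hxmem⟩ : ↥(H61.ratForm M K₀)) P :=
      Polynomial.aeval_map_algebraMap ↥(A.comap (algebraMap K₀ Kb)) _ P
    rw [h1]
    exact (Polynomial.aeval_algHom_apply
      ((algebraMap ↥(H61.ratForm M K₀) (FN M)).toIntAlgHom) (⟨x₀, hxmem⟩ : ↥(H61.ratForm M K₀))
      P).symm
  have hrel' : (⟨H28.jtop M, hjmem⟩ : ↥(H61.ratForm M K₀)) *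
      Polynomial.aeval (⟨x₀, hxmem⟩ : ↥(H61.ratForm M K₀))
        (D.map (Int.castRingHom ↥(A.comap (algebraMap K₀ Kb)))) =
      Polynomial.aeval (⟨x₀, hxmem⟩ : ↥(H61.ratForm M K₀))
        (N.map (Int.castRingHom ↥(A.comap (algebraMap K₀ Kb)))) := by
    apply Subtype.ext
    show H28.jtop M * ((Polynomial.aeval (⟨x₀, hxmem⟩ : ↥(H61.ratForm M K₀))
        (D.map (Int.castRingHom ↥(A.comap (algebraMap K₀ Kb)))) : ↥(H61.ratForm M K₀)) : FN M) = _
    rw [haev, haev]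
    exact hrel
  have hcop' : IsCoprime (N.map (Int.castRingHom ↥(A.comap (algebraMap K₀ Kb))))
      (D.map (Int.castRingHom ↥(A.comap (algebraMap K₀ Kb)))) := by
    obtain ⟨a, b, r, hr, hab⟩ := hcop
    obtain ⟨-, hr0, hrA⟩ := Fermat.Agent.S18.H60.unit_facts_gen A hA r hr
    have hunit : IsUnit ((r : ℕ) : ↥(A.comap (algebraMap K₀ Kb))) := by
      have hmem : (((r : ℕ) : K₀))⁻¹ ∈ A.comap (algebraMap K₀ Kb) := by
        show algebraMap K₀ Kb (((r : ℕ) : K₀))⁻¹ ∈ A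
        rw [map_inv₀, map_natCast]
        exact hrA
      refine IsUnit.of_mul_eq_one (⟨_, hmem⟩ : ↥(A.comap (algebraMap K₀ Kb))) ?_
      apply Subtype.ext
      show ((r : ℕ) : K₀) * (((r : ℕ) : K₀))⁻¹ = 1
      exact mul_inv_cancel₀ (Nat.cast_ne_zero.mpr hr0)
    obtain ⟨u, hu⟩ := hunit
    refine ⟨Polynomial.C (↑u⁻¹ : ↥(A.comap (algebraMap K₀ Kb))) *
        a.map (Int.castRingHom ↥(A.comap (algebraMap K₀ Kb))),
      Polynomial.C (↑u⁻¹ : ↥(A.comap (algebraMap K₀ Kb))) *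
        b.map (Int.castRingHom ↥(A.comap (algebraMap K₀ Kb))), ?_⟩
    have h1 : a.map (Int.castRingHom ↥(A.comap (algebraMap K₀ Kb))) *
          N.map (Int.castRingHom ↥(A.comap (algebraMap K₀ Kb))) +
        b.map (Int.castRingHom ↥(A.comap (algebraMap K₀ Kb))) *
          D.map (Int.castRingHom ↥(A.comap (algebraMap K₀ Kb))) =
        Polynomial.C ((r : ℕ) : ↥(A.comap (algebraMap K₀ Kb))) := by
      rw [← Polynomial.map_mul, ← Polynomial.map_mul, ← Polynomial.map_add, hab,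
        Polynomial.map_C]
      simp
    rw [mul_assoc, mul_assoc, ← mul_add, h1, ← Polynomial.C_mul, ← hu, Units.inv_mul,
      Polynomial.C_1]
  -- Gauss units
  have hNu : ∃ i, IsUnit ((N.map (Int.castRingHom ↥(A.comap (algebraMap K₀ Kb)))).coeff i) :=
    ⟨_, by rw [Polynomial.coeff_natDegree, hN'.leadingCoeff]; exact isUnit_one⟩
  have hDu : ∃ i, IsUnit ((D.map (Int.castRingHom ↥(A.comap (algebraMap K₀ Kb)))).coeff i) :=
    ⟨_, by rw [Polynomial.coeff_natDegree, hD'.leadingCoeff]; exact isUnit_one⟩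
  obtain ⟨hN1, hN2⟩ := hS.gauss _ hNu
  obtain ⟨hD1, hD2⟩ := hS.gauss _ hDu
  have hD0 : Polynomial.aeval (⟨x₀, hxmem⟩ : ↥(H61.ratForm M K₀))
      (D.map (Int.castRingHom ↥(A.comap (algebraMap K₀ Kb)))) ≠ 0 := fun h0 =>
    hD'.ne_zero ((transcendental_iff.mp hS.transc) _ h0)
  have hj₀eq : (⟨H28.jtop M, hjmem⟩ : ↥(H61.ratForm M K₀)) =
      Polynomial.aeval (⟨x₀, hxmem⟩ : ↥(H61.ratForm M K₀))
        (N.map (Int.castRingHom ↥(A.comap (algebraMap K₀ Kb)))) *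
      (Polynomial.aeval (⟨x₀, hxmem⟩ : ↥(H61.ratForm M K₀))
        (D.map (Int.castRingHom ↥(A.comap (algebraMap K₀ Kb)))))⁻¹ := by
    rw [← hrel', mul_assoc, mul_inv_cancel₀ hD0, mul_one]
  have hj₀mem : (⟨H28.jtop M, hjmem⟩ : ↥(H61.ratForm M K₀)) ∈
      (Fermat.Agent.S18.H66.gaussO A M hA hqM).comap (algebraMap ↥(H61.ratForm M K₀) (FN M)) := by
    rw [hj₀eq]
    exact ValuationSubring.mul_mem _ _ _ hN1 hD2
  have hj₀u : (⟨H28.jtop M, hjmem⟩ : ↥(H61.ratForm M K₀))⁻¹ ∈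
      (Fermat.Agent.S18.H66.gaussO A M hA hqM).comap (algebraMap ↥(H61.ratForm M K₀) (FN M)) := by
    rw [hj₀eq, mul_inv, inv_inv]
    exact ValuationSubring.mul_mem _ _ _ hN2 hD1
  have hj₀ne : (⟨H28.jtop M, hjmem⟩ : ↥(H61.ratForm M K₀)) ≠ 0 := by
    intro h0
    exact Fermat.Agent.S34.H42.jFN_ne_zero M M dvd_rfl (congrArg Subtype.val h0)
  have hx₀mem : (⟨x₀, hxmem⟩ : ↥(H61.ratForm M K₀)) ∈
      (Fermat.Agent.S18.H66.gaussO A M hA hqM).comap (algebraMap ↥(H61.ratForm M K₀) (FN M)) :=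
    H6.chart_le _ _ hS _ (self_mem_chart _ _)
  -- Kronecker
  obtain ⟨hkx₁', hkx₂'⟩ := kronecker_rat hTG x₀ hx₀.1 hx₀mem
  obtain ⟨hkj₁', hkj₂'⟩ := kronecker_rat hTG (H28.jtop M) ⟨jqNFull M, rfl⟩ hj₀mem
  have hkx₁ : H64.betaForm M q K₀ ⟨x₀, hxmem⟩ -
      algebraMap ↥(H61.ratForm M K₀) ↥(H61.ratForm (M * q) K₀) ⟨x₀, hxmem⟩ ^ q ∈
      (O₁.comap (algebraMap ↥(H61.ratForm (M * q) K₀) (FN (M * q)))).nonunits := by
    rw [H64.mem_nonunits_comap_iff, map_sub, map_pow]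
    exact hkx₁'
  have hkx₂ : algebraMap ↥(H61.ratForm M K₀) ↥(H61.ratForm (M * q) K₀) ⟨x₀, hxmem⟩ -
      H64.betaForm M q K₀ ⟨x₀, hxmem⟩ ^ q ∈
      ((H61.gaussTwo M q O₁ w).comap
        (algebraMap ↥(H61.ratForm (M * q) K₀) (FN (M * q)))).nonunits := by
    rw [H64.mem_nonunits_comap_iff, map_sub, map_pow]
    exact hkx₂'
  have hkj₁ : H64.betaForm M q K₀ ⟨H28.jtop M, hjmem⟩ -
      algebraMap ↥(H61.ratForm M K₀) ↥(H61.ratForm (M * q) K₀) ⟨H28.jtop M, hjmem⟩ ^ q ∈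
      (O₁.comap (algebraMap ↥(H61.ratForm (M * q) K₀) (FN (M * q)))).nonunits := by
    rw [H64.mem_nonunits_comap_iff, map_sub, map_pow]
    exact hkj₁'
  have hkj₂ : algebraMap ↥(H61.ratForm M K₀) ↥(H61.ratForm (M * q) K₀) ⟨H28.jtop M, hjmem⟩ -
      H64.betaForm M q K₀ ⟨H28.jtop M, hjmem⟩ ^ q ∈
      ((H61.gaussTwo M q O₁ w).comap
        (algebraMap ↥(H61.ratForm (M * q) K₀) (FN (M * q)))).nonunits := by
    rw [H64.mem_nonunits_comap_iff, map_sub, map_pow]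
    exact hkj₂'
  -- the modular equations for `j(q^M)`
  obtain ⟨Φ, hΦ⟩ := Fermat.Agent.S28.hasModPolys q hq
  obtain ⟨hm12, hm21⟩ := evalY_alpha_beta_jtop M q hΦ
  have h12 : (Fermat.Agent.S28.evalY
      (algebraMap ↥(H61.ratForm M K₀) ↥(H61.ratForm (M * q) K₀) ⟨H28.jtop M, hjmem⟩) Φ).eval
      (H64.betaForm M q K₀ ⟨H28.jtop M, hjmem⟩) = 0 := by
    apply (algebraMap ↥(H61.ratForm (M * q) K₀) (FN (M * q))).injective
    rw [Fermat.Agent.S28.map_evalY_eval, map_zero]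
    exact hm12
  have h21 : (Fermat.Agent.S28.evalY (H64.betaForm M q K₀ ⟨H28.jtop M, hjmem⟩) Φ).eval
      (algebraMap ↥(H61.ratForm M K₀) ↥(H61.ratForm (M * q) K₀) ⟨H28.jtop M, hjmem⟩) = 0 := by
    apply (algebraMap ↥(H61.ratForm (M * q) K₀) (FN (M * q))).injective
    rw [Fermat.Agent.S28.map_evalY_eval, map_zero]
    exact hm21
  -- `β x₀` is integral over `A₀[α x₀]`
  have hjq := Fermat.Agent.S34.H42.beta_mem_chart_of_rel ϖ hϖ (⟨x₀, hxmem⟩ : ↥(H61.ratForm M K₀))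
    ⟨H28.jtop M, hjmem⟩ (Fermat.Agent.S34.H42.dsetup_ne_zero _ _ hS) hj₀ne _ _
    (H64.betaForm M q K₀) hβA hCG.frac₁ hsemi.le₁₁ hsemi.le₁₂ hsemi.unif₁ hsemi.unif₂ hsemi.sat₁
    _ _ hrel' hN' hD' hdeg' hcop' hq.ne_zero hΦ h12 h21 hkx₁ hkx₂
  refine ⟨fun x hx hϖx hnb => ?_, fun x hx hϖx hnb => ?_⟩
  · exact Fermat.Agent.S34.H42.pointUFD_chart_of_not_both ϖ hϖ _ _ hS _ _
      (H64.alphaForm_mem_comap_iff hTG K₀) hT.res₁ (H64.betaForm M q K₀) hβA
      (H64.betaForm_mem_comap_iff₂ hTG K₀) hresβ hCG.frac₁ hsemi.le₁₁ hsemi.le₁₂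
      hsemi.unif₁ hsemi.unif₂ hsemi.sat₁ hjq x hx hϖx hnb
  · exact Fermat.Agent.S34.H42.pointUFD_chartInv_of_not_both_rel ϖ hϖ _
      (⟨x₀, hxmem⟩ : ↥(H61.ratForm M K₀)) ⟨H28.jtop M, hjmem⟩ hS hS' hj₀ne hj₀u _ _
      (H64.alphaForm_mem_comap_iff hTG K₀) hT.res₁ (H64.betaForm M q K₀) hβA
      (H64.betaForm_mem_comap_iff₂ hTG K₀) hresβ hCG.frac₂ hsemi.le₂₁ hsemi.le₂₂
      hsemi.unif₁ hsemi.unif₂ hsemi.sat₂ hjq _ _ hrel' hN' hD' hdeg' hq hΦ h12 h21 hkj₁ hkj₂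
      x hx hϖx hnb

/-- **One-component points of the concrete model, base function `j(q^M)`.** -/
theorem oneComp_jtop (M q : ℕ) [NeZero M] [Fact q.Prime] (hqM : ¬ q ∣ M)
    (A : ValuationSubring Kb) (hA : A.LiesOverPrime q) (hAtop : A ≠ ⊤)
    (O₁ : ValuationSubring (FN (M * q))) (w : FN (M * q) ≃+* FN (M * q))
    (hTG : Fermat.Agent.S34.H64.TwoGauss M q hqM A hA O₁ w)
    (hx₀ : IsBase M q hqM A hA (H28.jtop M))
    (K₀ : IntermediateField ℚ Kb) [FiniteDimensional ℚ K₀] [Normal ℚ K₀]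
    (ϖ : ↥(A.comap (algebraMap K₀ Kb))) (hϖ : Irreducible ϖ)
    (j : ↥(H61.ratForm (M * q) K₀))
    (hj : (j : FN (M * q)) = heckeAlphaBar Kb M q (H28.jtop M)) (σ : Kb ≃ₐ[ℚ] Kb)
    (hchart : letI := algComap (A.comap (algebraMap K₀ Kb)) (H61.ratForm (M * q) K₀)
      Transcendental ↥(A.comap (algebraMap K₀ Kb)) j ∧
        Module.Finite ↥(ratSub ↥(A.comap (algebraMap K₀ Kb)) j) ↥(H61.ratForm (M * q) K₀))
    (hsemi : (stdV M q A hAtop O₁ w K₀ ϖ j σ).Semi) :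
    (stdV M q A hAtop O₁ w K₀ ϖ j σ).OneComp := by
  have hq : q.Prime := Fact.out
  haveI : NeZero q := ⟨hq.ne_zero⟩
  letI algL := algComap (A.comap (algebraMap K₀ Kb)) (H61.ratForm (M * q) K₀)
  letI algK := algComap (A.comap (algebraMap K₀ Kb)) (H61.ratForm M K₀)
  letI algE : Algebra ↥(H61.ratForm M K₀) ↥(H61.ratForm (M * q) K₀) :=
    (H64.alphaForm M q K₀).toAlgebra
  letI modE : Module ↥(H61.ratForm M K₀) ↥(H61.ratForm (M * q) K₀) := algE.toModule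
  letI smulE : SMul ↥(H61.ratForm M K₀) ↥(H61.ratForm (M * q) K₀) := algE.toSMul
  haveI := Fermat.Agent.S34.H78.isDVR_comap hAtop K₀
  haveI := Fermat.Agent.S34.H78.faithfulSMul_comap A K₀ (H61.ratForm M K₀)
  haveI := Fermat.Agent.S34.H78.faithfulSMul_comap A K₀ (H61.ratForm (M * q) K₀)
  haveI : CharZero ↥(A.comap (algebraMap K₀ Kb)) := inferInstance
  haveI : IsScalarTower ↥(A.comap (algebraMap K₀ Kb)) ↥(H61.ratForm M K₀)
      ↥(H61.ratForm (M * q) K₀) :=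
    IsScalarTower.of_algebraMap_eq (fun a => (H64.alphaForm_algebraMap K₀ (a : K₀)).symm)
  -- the base function on the `K₀`-form
  obtain ⟨g, hg⟩ := hx₀.1
  have hxmem : H28.jtop M ∈ H61.ratForm M K₀ := by
    rw [← hg]
    exact H61.ratEmb_mem_ratForm M K₀ g
  obtain ⟨hS, hS'⟩ := hx₀.2 K₀ hxmem
  have hjx : j = algebraMap ↥(H61.ratForm M K₀) ↥(H61.ratForm (M * q) K₀) ⟨H28.jtop M, hxmem⟩ :=
    Subtype.ext hj
  subst hjx
  haveI : IsDiscreteValuationRing ↥((Fermat.Agent.S18.H66.gaussO A M hA hqM).comap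
      (algebraMap ↥(H61.ratForm M K₀) (FN M))) :=
    Fermat.Agent.S34.H10.isDiscreteValuationRing_of_dsetup hϖ hS
  have hT := H64.twoExt_ratForm hTG K₀
  have hCG := Fermat.Agent.S34.H44.chartsGood _ hchart.1 hchart.2
  haveI := hCG.icl₁
  haveI := hCG.icl₂
  haveI := hCG.noeth₁
  haveI := hCG.noeth₂
  -- the second degeneracy map
  have hβA : ∀ a : ↥(A.comap (algebraMap K₀ Kb)),
      H64.betaForm M q K₀ (algebraMap ↥(A.comap (algebraMap K₀ Kb)) ↥(H61.ratForm M K₀) a) =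
        algebraMap ↥(A.comap (algebraMap K₀ Kb)) ↥(H61.ratForm (M * q) K₀) a :=
    fun a => H64.betaForm_algebraMap K₀ (a : K₀)
  have hsup := Fermat.Agent.S34.H42.beta_supply _ _ _ (H64.alphaForm_mem_comap_iff hTG K₀)
    hT.res₁ (H64.wForm hTG K₀) (H64.mem_gaussTwo_comap_iff hTG K₀) (H64.wForm_wForm hTG K₀)
  have hresβ : ∀ g ∈ (H61.gaussTwo M q O₁ w).comap
      (algebraMap ↥(H61.ratForm (M * q) K₀) (FN (M * q))),
      ∃ v ∈ (Fermat.Agent.S18.H66.gaussO A M hA hqM).comap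
        (algebraMap ↥(H61.ratForm M K₀) (FN M)),
        g - H64.betaForm M q K₀ v ∈ ((H61.gaussTwo M q O₁ w).comap
          (algebraMap ↥(H61.ratForm (M * q) K₀) (FN (M * q)))).nonunits := by
    intro g hg
    obtain ⟨v, hv, h⟩ := hsup.2 g hg
    refine ⟨v, hv, ?_⟩
    rw [← H64.wForm_alphaForm hTG K₀ v]
    exact h
  -- the modular equation
  obtain ⟨Φ, hΦ⟩ := Fermat.Agent.S28.hasModPolys q hq
  obtain ⟨hm12, hm21⟩ := evalY_alpha_beta_jtop M q hΦ
  have h12 : (Fermat.Agent.S28.evalY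
      (algebraMap ↥(H61.ratForm M K₀) ↥(H61.ratForm (M * q) K₀) ⟨H28.jtop M, hxmem⟩) Φ).eval
      (H64.betaForm M q K₀ ⟨H28.jtop M, hxmem⟩) = 0 := by
    apply (algebraMap ↥(H61.ratForm (M * q) K₀) (FN (M * q))).injective
    rw [Fermat.Agent.S28.map_evalY_eval, map_zero]
    exact hm12
  refine ⟨fun x hx hϖx hnb => ?_, fun x hx hϖx hnb => ?_⟩
  · exact Fermat.Agent.S34.H42.pointUFD_chart_of_not_both ϖ hϖ _ _ hS _ _
      (H64.alphaForm_mem_comap_iff hTG K₀) hT.res₁ (H64.betaForm M q K₀) hβA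
      (H64.betaForm_mem_comap_iff₂ hTG K₀) hresβ hCG.frac₁ hsemi.le₁₁ hsemi.le₁₂
      hsemi.unif₁ hsemi.unif₂ hsemi.sat₁
      (Fermat.Agent.S34.H42.mem_chart_of_evalY hΦ _ _ h12) x hx hϖx hnb
  · exact Fermat.Agent.S34.H42.pointUFD_chartInv_of_not_both ϖ hϖ _ _ hS hS' _ _
      (H64.alphaForm_mem_comap_iff hTG K₀) hT.res₁ (H64.betaForm M q K₀) hβA
      (H64.betaForm_mem_comap_iff₂ hTG K₀) hresβ hCG.frac₂ hsemi.le₂₁ hsemi.le₂₂
      hsemi.unif₁ hsemi.unif₂ hsemi.sat₂ hq.ne_zero hΦ h12 x hx hϖx hnb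

end Fermat.Agent.S34.H9
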