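/-
Program B' (S34), leaf (M6a) — helper9: THE ONE-COMPONENT LEAF IS PROVED.

`oneCompLeaf2 : H30.OneCompLeaf2` and `oneCompLeafB_std : H77.OneCompLeafB H30.StdB`: for the three
standard base functions (`j(q^M)` for `q ≥ 5`, the Hauptmodul of level two for `q = 3`, of level
three for `q = 2`), the closed points of the special fibre of both charts of the concrete model
`H30.stdV` which do not lie on both components are factorial points.

Instances of `H9.oneComp_of_rel` (`OneCompConc.lean`) at the relations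
`j(q^M) · 1 = X(j(q^M))`, `j(q^M) · h = (h + 16)³`, `j(q^M) · h = (h + 27)(h + 3)³`, with the chart
leaf (`H30.chartLeaf`) and the semi-local leaf (`H30.semiLeaf`).
-/
import Fermat.Agent.S34.H9.OneCompConc
import Fermat.Agent.S34.H30.SemiClose
import Fermat.Agent.S34.H19.L6Haupt

set_option autoImplicit false
set_option linter.style.haveILetI false
set_option linter.unusedSectionVars false
set_option linter.unusedVariables false

open AlgebraicCurve ModularCurve

noncomputable section

namespace Fermat.Agent.S34.H9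

open Fermat.Agent.S18 Fermat.Agent.S18.H74 Fermat.Agent.S18.H19 Fermat.Agent.S34.H19
  Fermat.Agent.S34.H30 Polynomial

/-- Bezout identity for `(X + 16)³` and `X`. -/
theorem bezout_two : (1 : ℤ[X]) * (X + C 16) ^ 3 + (-(X ^ 2 + C 48 * X + C 768)) * X =
    C ((4096 : ℕ) : ℤ) := by
  apply Polynomial.funext
  intro t
  simp
  ring

/-- Bezout identity for `(X + 27)(X + 3)³` and `X`. -/
theorem bezout_three : (1 : ℤ[X]) * ((X + C 27) * (X + C 3) ^ 3) +
    (-(X ^ 3 + C 36 * X ^ 2 + C 270 * X + C 756)) * X = C ((729 : ℕ) : ℤ) := by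
  apply Polynomial.funext
  intro t
  simp
  ring

/-- **Leaf (M6a), one-component points, for the standard base functions: proved.** -/
theorem oneCompLeaf2 : OneCompLeaf2 := by
  intro M q _ _ hqM A hA hAtop O₁ w hTG x₀ hx₀ hB K₀ _ _ ϖ hϖ j hj σ
  have hchart := chartLeaf M q hqM A hA x₀ hx₀ K₀ j hj
  have hsemi := semiLeaf M q hqM A hA hAtop O₁ w hTG x₀ hx₀ K₀ ϖ hϖ j hj σ
  rcases hB with ⟨-, -, rfl⟩ | ⟨hq3, n, hn, hM, rfl⟩ | ⟨hq2, n, hn, hM, rfl⟩
  · -- `x₀ = j(q^M)`
    exact oneComp_of_rel M q hqM A hA hAtop O₁ w hTG _ hx₀ X 1 (by simp) monic_X monic_one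
      (by simp) ⟨0, 1, 1, by
        intro h
        exact (Fact.out : q.Prime).one_lt.ne' (Nat.dvd_one.mp h), by simp⟩
      K₀ ϖ hϖ j hj σ hchart hsemi
  · -- the Hauptmodul of level two, `q = 3`
    exact oneComp_of_rel M q hqM A hA hAtop O₁ w hTG _ hx₀ ((X + C 16) ^ 3) X
      (hauptTwo_rel_poly n M hM) ((monic_X_add_C 16).pow 3) monic_X
      (by rw [natDegree_X, natDegree_pow, natDegree_X_add_C]; norm_num)
      ⟨1, -(X ^ 2 + C 48 * X + C 768), 4096, by subst hq3; decide, bezout_two⟩
      K₀ ϖ hϖ j hj σ hchart hsemi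
  · -- the Hauptmodul of level three, `q = 2`
    exact oneComp_of_rel M q hqM A hA hAtop O₁ w hTG _ hx₀ ((X + C 27) * (X + C 3) ^ 3) X
      (hauptThree_rel_poly n M hM) ((monic_X_add_C 27).mul ((monic_X_add_C 3).pow 3)) monic_X
      (by
        rw [natDegree_X, (monic_X_add_C 27).natDegree_mul ((monic_X_add_C 3).pow 3),
          natDegree_pow, natDegree_X_add_C, natDegree_X_add_C]
        norm_num)
      ⟨1, -(X ^ 3 + C 36 * X ^ 2 + C 270 * X + C 756), 729, by subst hq2; decide, bezout_three⟩
      K₀ ϖ hϖ j hj σ hchart hsemi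

/-- **Leaf (M6a), relative form for the standard base function: proved.** -/
theorem oneCompLeafB_std : Fermat.Agent.S34.H77.OneCompLeafB StdB :=
  oneCompLeafB_std_of2 oneCompLeaf2

end Fermat.Agent.S34.H9
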